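import Fermat.Agent.LT.Quad.Exist

/-!
# Quadratic ray characters with prescribed values: triviality and non-existence

`K` totally complex.  A quadratic ray character which is trivial at all places which do not split
in `K(√a)` is trivial (`eq_zero_of_inert`).  There is no quadratic ray character whose kernel
consists exactly of the places which split completely in `K(√a, √a')`, `[K(√a, √a') : K] = 4`
(`false_of_biquadratic`).  No `L`-functions and no density theorem: only the existence theorem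
`exists_kummer` and `exists_place`.
-/

set_option autoImplicit false

namespace Fermat.Agent.LT.Quad

open IsDedekindDomain NumberField
open Fermat.Agent.CFT.Global hiding Inputs p_dvd_index exists_notMem_locPow exists_place powE
  mem_powE index_powE index_zpowers_sup_powE second hasse_norm FirstInequality exists_eq_nsmul_add
  exists_ne_symVec exists_functional_aux exists_inj forall_ne_zero exists_functional
open Fermat.Agent.CFT.Global2

variable {K : Type} [Field K] [NumberField K]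

lemma neg_one_root : IsPrimitiveRoot (-1 : K) 2 := IsPrimitiveRoot.neg_one 0 (by norm_num)

lemma not_pow_mul_sq {a x : Kˣ} (hx : ∀ c : Kˣ, c ^ 2 ≠ x) (hax : ∀ c : Kˣ, c ^ 2 ≠ a * x)
    (k : ℕ) (b : Kˣ) : x ≠ a ^ k * b ^ 2 := by
  intro h
  rcases Nat.even_or_odd' k with ⟨m, rfl | rfl⟩
  · apply hx (a ^ m * b)
    rw [h, mul_pow, ← pow_mul, mul_comm m 2]
  · apply hax (a ^ (m + 1) * b)
    rw [h, mul_pow, ← pow_mul, ← mul_assoc, ← pow_succ']
    congr 2
    ring

variable [IsTotallyComplex K]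

/-- There are infinitely many places with `a ∈ K_v²`, `x ∉ K_v²`, unless `x ∈ {1, a}` modulo
squares. -/
theorem exists_split_inert (T : Finset (HeightOneSpectrum (𝓞 K))) {a x : Kˣ}
    (ha : ∀ c : Kˣ, c ^ 2 ≠ a) (hx : ∀ c : Kˣ, c ^ 2 ≠ x) (hax : ∀ c : Kˣ, c ^ 2 ≠ a * x) :
    ∃ v, v ∉ T ∧ a ∈ locPow 2 v ∧ x ∉ locPow 2 v := by
  classical
  obtain ⟨T', hTT', hT'p, -, hF⟩ := exists_good (K := K) 2 two_ne_zero T {a, x}
  obtain ⟨v, hv, h1, h2⟩ := exists_place (p := 2) inputs neg_one_root hT'p (hF a (by simp)) ha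
    (hF x (by simp)) (not_pow_mul_sq hx hax)
  exact ⟨v, fun h => hv (hTT' h), h1, h2⟩

/-- A quadratic ray character which is trivial at (almost) all `v` inert in `K(√a)` is trivial. -/
theorem eq_zero_of_inert {S : Finset (HeightOneSpectrum (𝓞 K))} {n : ℕ}
    {η : HeightOneSpectrum (𝓞 K) → ZMod 2} (hη : IsRay S n η) {a : Kˣ}
    (ha : ∀ c : Kˣ, c ^ 2 ≠ a) (S₀ : Finset (HeightOneSpectrum (𝓞 K)))
    (h : ∀ v, v ∉ S₀ → a ∉ locPow 2 v → η v = 0) : ∀ v, v ∉ S → η v = 0 := by
  classical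
  obtain ⟨b, T, hST, hTp, hb, hbT⟩ := exists_kummer (p := 2) neg_one_root hη
  by_cases hb2 : ∃ c : Kˣ, c ^ 2 = b
  · obtain ⟨c, rfl⟩ := hb2
    exact eq_zero_of_large hη (T := T) fun v hv => (hbT v hv).2 (pow_mem_locPow 2 v c)
  push Not at hb2
  exfalso
  by_cases hab : ∃ c : Kˣ, c ^ 2 = b * a
  · obtain ⟨c, hc⟩ := hab
    obtain ⟨v, hv, hav⟩ := exists_notMem_locPow (p := 2) inputs neg_one_root (T ∪ S₀) ha
    rw [Finset.mem_union, not_or] at hv
    have h1 := (hbT v hv.1).1 (h v hv.2 hav)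
    apply hav
    have h2 : a = c ^ 2 / b := by rw [hc, mul_div_cancel_left]
    rw [h2]
    exact div_mem (pow_mem_locPow 2 v c) h1
  · push Not at hab
    -- `a b` is a local square, `a` is not
    obtain ⟨v, hv, h1, h2⟩ := exists_split_inert (T ∪ S₀) (a := b * a) (x := a) hab ha (by
      intro c hc
      apply hb2 (c / a)
      rw [div_pow, hc, sq, mul_assoc, mul_div_cancel_right])
    rw [Finset.mem_union, not_or] at hv
    have h3 := (hbT v hv.1).1 (h v hv.2 h2)
    apply h2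
    have h4 : a = b * a / b := (mul_div_cancel_left b a).symm
    rw [h4]
    exact div_mem h1 h3

/-- No quadratic ray character has kernel the places split completely in a biquadratic
extension. -/
theorem false_of_biquadratic {S : Finset (HeightOneSpectrum (𝓞 K))} {n : ℕ}
    {η : HeightOneSpectrum (𝓞 K) → ZMod 2} (hη : IsRay S n η) {a a' : Kˣ}
    (ha : ∀ c : Kˣ, c ^ 2 ≠ a) (ha' : ∀ c : Kˣ, c ^ 2 ≠ a') (haa : ∀ c : Kˣ, c ^ 2 ≠ a * a')
    (S₀ : Finset (HeightOneSpectrum (𝓞 K)))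
    (h : ∀ v, v ∉ S₀ → (η v = 0 ↔ a ∈ locPow 2 v ∧ a' ∈ locPow 2 v)) : False := by
  classical
  obtain ⟨b, T, hST, hTp, hb, hbT⟩ := exists_kummer (p := 2) neg_one_root hη
  by_cases hb2 : ∃ c : Kˣ, c ^ 2 = b
  · obtain ⟨c, rfl⟩ := hb2
    obtain ⟨v, hv, hav⟩ := exists_notMem_locPow (p := 2) inputs neg_one_root (T ∪ S₀) ha
    rw [Finset.mem_union, not_or] at hv
    exact hav ((h v hv.2).1 ((hbT v hv.1).2 (pow_mem_locPow 2 v c))).1
  push Not at hb2
  have key : ∀ x : Kˣ, (∀ c : Kˣ, c ^ 2 ≠ x) →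
      (∀ v, v ∉ S₀ → η v = 0 → x ∈ locPow 2 v) → ∃ c : Kˣ, c ^ 2 = b * x := by
    intro x hx hxv
    by_contra hcon
    push Not at hcon
    obtain ⟨v, hv, h1, h2⟩ := exists_split_inert (T ∪ S₀) (a := b) (x := x) hb2 hx hcon
    rw [Finset.mem_union, not_or] at hv
    exact h2 (hxv v hv.2 ((hbT v hv.1).2 h1))
  obtain ⟨c, hc⟩ := key a ha (fun v hv h0 => ((h v hv).1 h0).1)
  obtain ⟨c', hc'⟩ := key a' ha' (fun v hv h0 => ((h v hv).1 h0).2)
  apply haa (c * c' / b)
  rw [div_pow, mul_pow, hc, hc', mul_mul_mul_comm, sq, mul_div_cancel_left]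

end Fermat.Agent.LT.Quad
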