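import Fermat.Agent.LT.Ray
import Fermat.Agent.CFT.Global2.ProductFormula

/-!
# The existence theorem for ray class characters of order `p`

`K` a totally complex number field containing `ζ_p`.  Every ray character with values in `ZMod p`
is given by a Kummer extension: there is `b ∈ Kˣ` with `η v = 0 ↔ b ∈ (K_v)^p` for almost all `v`
(`exists_kummer`).
-/

set_option autoImplicit false

namespace Fermat.Agent.LT.Quad

open IsDedekindDomain NumberField WithZero
open Fermat.Agent.CFT.SUnits (ord ord_one ord_mul ord_inv ord_pow ord_div ord_eq_zero_iff div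
  div_apply)
open Fermat.Agent.CFT.Global hiding Inputs p_dvd_index exists_notMem_locPow exists_place powE
  mem_powE index_powE index_zpowers_sup_powE second hasse_norm FirstInequality exists_eq_nsmul_add
  exists_ne_symVec exists_functional_aux exists_inj forall_ne_zero exists_functional
open Fermat.Agent.CFT.Global2

section Linear

/-- Isotropic subspaces of half the dimension are their own orthogonals. -/
theorem exists_mem_of_isotropic {Q : Type*} [CommGroup Q] [Finite Q] (p : ℕ) [Fact p.Prime]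
    (hQ : ∀ x : Q, x ^ p = 1) (B : Q →* Q →* Multiplicative (ZMod p))
    (hB : ∀ x, (∀ y, B x y = 1) → x = 1) (W : Subgroup Q)
    (hW : ∀ x ∈ W, ∀ y ∈ W, B x y = 1) (hc : Nat.card Q ≤ Nat.card W ^ 2)
    (φ : Q →* Multiplicative (ZMod p)) (hφ : ∀ w ∈ W, φ w = 1) :
    ∃ w ∈ W, ∀ y, φ y = B w y := by
  let V := Additive Q
  let _ : Module (ZMod p) V := AddCommGroup.zmodModule (n := p) fun x => hQ x.toMul
  have : Finite V := inferInstanceAs (Finite Q)
  let B' : V →ₗ[ZMod p] Module.Dual (ZMod p) V :=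
    AddMonoidHom.toZModLinearMap p
      { toFun := fun x => AddMonoidHom.toZModLinearMap p (MonoidHom.toAdditiveLeft (B x.toMul))
        map_zero' := by
          ext y
          change (B 1 y.toMul).toAdd = 0
          rw [map_one]
          rfl
        map_add' := fun x y => by
          ext z
          change (B (x.toMul * y.toMul) z.toMul).toAdd = _
          rw [map_mul]
          rfl }
  have hB'apply : ∀ x y : V, B' x y = (B x.toMul y.toMul).toAdd := fun x y => rfl
  have hinj : Function.Injective B' := by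
    rw [injective_iff_map_eq_zero]
    intro x hx
    have : x.toMul = 1 := by
      apply hB
      intro y
      have h1 : B' x (Additive.ofMul y) = 0 := by rw [hx]; rfl
      rw [hB'apply] at h1
      exact h1
    exact this
  let W' : Submodule (ZMod p) V := AddSubgroup.toZModSubmodule p (Subgroup.toAddSubgroup W)
  have h1 : W'.map B' ≤ W'.dualAnnihilator := by
    rintro _ ⟨x, hx, rfl⟩
    rw [Submodule.mem_dualAnnihilator]
    intro y hy
    rw [hB'apply, hW x.toMul hx y.toMul hy]
    rfl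
  have h2 : Nat.card V = p ^ Module.finrank (ZMod p) V := by
    rw [Module.natCard_eq_pow_finrank (K := ZMod p), Nat.card_zmod]
  have h3 : Nat.card W' = p ^ Module.finrank (ZMod p) W' := by
    rw [Module.natCard_eq_pow_finrank (K := ZMod p), Nat.card_zmod]
  have h4 : Nat.card W = Nat.card W' := rfl
  have h5 : Nat.card Q = Nat.card V := rfl
  have h6 : Module.finrank (ZMod p) V ≤ 2 * Module.finrank (ZMod p) W' := by
    rw [h4, h5, h2, h3, ← pow_mul, mul_comm] at hc
    exact (Nat.pow_le_pow_iff_right (Fact.out : p.Prime).one_lt).1 hc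
  have h7 : Module.finrank (ZMod p) (W'.map B') = Module.finrank (ZMod p) W' :=
    (Submodule.equivMapOfInjective B' hinj W').finrank_eq.symm
  have h8 := Subspace.finrank_add_finrank_dualAnnihilator_eq W'
  have h9 : W'.map B' = W'.dualAnnihilator := by
    apply Submodule.eq_of_le_of_finrank_le h1
    omega
  let φ' : Module.Dual (ZMod p) V := AddMonoidHom.toZModLinearMap p (MonoidHom.toAdditiveLeft φ)
  have hφ'apply : ∀ y : V, φ' y = (φ y.toMul).toAdd := fun y => rfl
  have h10 : φ' ∈ W'.dualAnnihilator := by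
    rw [Submodule.mem_dualAnnihilator]
    intro y hy
    rw [hφ'apply, hφ y.toMul hy]
    rfl
  rw [← h9] at h10
  obtain ⟨w, hw, hw'⟩ := h10
  refine ⟨w.toMul, hw, fun y => ?_⟩
  have h11 : (φ y).toAdd = (B w.toMul y).toAdd := by
    have := hB'apply w (Additive.ofMul y)
    rw [hw'] at this
    exact this
  exact h11

/-- The same for a degenerate form on an arbitrary group `G`. -/
theorem exists_mem_of_isotropic' {G : Type*} [CommGroup G] (p : ℕ) [Fact p.Prime]
    (P : Subgroup G) (hP : ∀ x, x ^ p ∈ P) (B : G →* G →* Multiplicative (ZMod p))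
    (hBl : ∀ x ∈ P, ∀ y, B x y = 1) (hBr : ∀ x, ∀ y ∈ P, B x y = 1)
    (hB : ∀ x, (∀ y, B x y = 1) → x ∈ P) (U : Subgroup G)
    (hU : ∀ x ∈ U, ∀ y ∈ U, B x y = 1) (h0 : P.index ≠ 0) (hc : P.index ≤ P.relIndex U ^ 2)
    (φ : G →* Multiplicative (ZMod p)) (hφ : ∀ u ∈ U, φ u = 1) (hφP : ∀ x ∈ P, φ x = 1) :
    ∃ u ∈ U, ∀ y, φ y = B u y := by
  have hfin : Finite (G ⧸ P) := Nat.finite_of_card_ne_zero h0
  let B₁ : G →* (G ⧸ P) →* Multiplicative (ZMod p) :=
    { toFun := fun x => QuotientGroup.lift P (B x) (fun y hy => hBr x y hy)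
      map_one' := by
        ext y
        change B 1 y = 1
        rw [map_one, MonoidHom.one_apply]
      map_mul' := fun x y => by
        ext z
        change B (x * y) z = B x z * B y z
        rw [map_mul, MonoidHom.mul_apply] }
  let B₂ : (G ⧸ P) →* (G ⧸ P) →* Multiplicative (ZMod p) := QuotientGroup.lift P B₁ (by
    intro x hx
    change B₁ x = 1
    ext y
    exact hBl x hx y)
  have hB₂ : ∀ x y : G, B₂ (x : G ⧸ P) (y : G ⧸ P) = B x y := fun x y => rfl
  obtain ⟨w, hw, hw'⟩ := exists_mem_of_isotropic (Q := G ⧸ P) p (by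
      intro x
      obtain ⟨x, rfl⟩ := QuotientGroup.mk_surjective x
      rw [← QuotientGroup.mk_pow, QuotientGroup.eq_one_iff]
      exact hP x) B₂ (by
      intro x
      obtain ⟨x, rfl⟩ := QuotientGroup.mk_surjective x
      intro hx
      rw [QuotientGroup.eq_one_iff]
      exact hB x fun y => hx (y : G ⧸ P)) (U.map (QuotientGroup.mk' P)) (by
      rintro _ ⟨x, hx, rfl⟩ _ ⟨y, hy, rfl⟩
      exact hU x hx y hy) (by
      rw [← Subgroup.relIndex_ker, QuotientGroup.ker_mk']
      exact hc) (QuotientGroup.lift P φ hφP) (by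
      rintro _ ⟨x, hx, rfl⟩
      exact hφ x hx)
  obtain ⟨b, hb, rfl⟩ := hw
  exact ⟨b, hb, fun y => hw' (y : G ⧸ P)⟩

end Linear

section Ray

variable {K : Type*} [Field K] [NumberField K]

/-- A ray character is trivial if it is trivial at almost all places. -/
theorem eq_zero_of_large {A : Type*} [AddCommGroup A] {S T : Finset (HeightOneSpectrum (𝓞 K))}
    {n : ℕ} {η : HeightOneSpectrum (𝓞 K) → A} (h : IsRay S n η) (hT : ∀ v, v ∉ T → η v = 0) :
    ∀ v, v ∉ S → η v = 0 := by
  classical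
  intro v hv
  by_cases hvT : v ∈ T
  swap
  · exact hT v hvT
  obtain ⟨π, hπ⟩ := exists_ord_eq_one (K := K) v
  obtain ⟨x, hx⟩ := indep_cong (K := K) (S ∪ T) n (fun w => if w = v then π else 1)
  have hxS : ∀ w ∈ S, x ∈ cong w n := by
    intro w hw
    have h1 := hx w (Finset.mem_union_left _ hw)
    have h2 : w ≠ v := by
      rintro rfl
      exact hv hw
    rwa [if_neg h2, div_one] at h1
  have h1 := h x hxS
  have hxv : ord v x = 1 := by
    have h3 := ord_eq_zero_of_mem_cong (hx v (Finset.mem_union_right _ hvT))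
    rw [if_pos rfl, ord_div, hπ] at h3
    omega
  have h2 : (rayVal S η x).toAdd = ord v x • η v := by
    rw [toAdd_rayVal_eq_sum S {v} η x, Finset.sum_singleton, if_neg hv]
    intro w hwv hwS
    rw [Finset.mem_singleton] at hwv
    by_cases hwT : w ∈ T
    · have h3 := ord_eq_zero_of_mem_cong (hx w (Finset.mem_union_right _ hwT))
      rw [if_neg hwv, div_one] at h3
      rw [h3, zero_smul]
    · rw [hT w hwT, smul_zero]
  rw [h1, hxv, one_smul] at h2
  exact h2.symm

/-- A ray character with values in `ZMod p` kills the elements which are local `p`-th powers at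
`S`. -/
lemma rayVal_eq_one_of_locPow {p : ℕ} {S : Finset (HeightOneSpectrum (𝓞 K))} {n : ℕ}
    {η : HeightOneSpectrum (𝓞 K) → ZMod p} (h : IsRay S n η) {x : Kˣ}
    (hx : ∀ v ∈ S, x ∈ locPow p v) : rayVal S η x = 1 := by
  classical
  have h1 : ∀ v : HeightOneSpectrum (𝓞 K), ∃ y : Kˣ, v ∈ S → x / y ^ p ∈ cong v n := by
    intro v
    by_cases hv : v ∈ S
    · obtain ⟨y, hy⟩ := mem_locPow.1 (hx v hv) n
      exact ⟨y, fun _ => hy⟩
    · exact ⟨1, fun h => absurd h hv⟩
  choose y hy using h1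
  obtain ⟨z, hz⟩ := indep_cong (K := K) S n y
  have h2 : ∀ v ∈ S, x / z ^ p ∈ cong v n := by
    intro v hv
    have h3 : x / z ^ p = (x / y v ^ p) / ((z / y v) ^ p) := by
      rw [_root_.div_pow, div_div_div_cancel_right]
    rw [h3]
    exact div_mem (hy v hv) (pow_mem (hz v hv) p)
  have h3 := h _ h2
  have h4 : x = (x / z ^ p) * z ^ p := (div_mul_cancel x (z ^ p)).symm
  have h6 : rayVal S η z ^ p = 1 := by
    apply Multiplicative.toAdd.injective
    rw [toAdd_pow, toAdd_one, nsmul_eq_mul, CharP.cast_eq_zero, zero_mul]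
  rw [h4, map_mul, map_pow, h3, h6, mul_one]

end Ray

section Exist

variable {K : Type} [Field K] [NumberField K] {p : ℕ} [hp : Fact p.Prime]

/-- At a place outside `S ⊇ {v ∣ p}`, an `S`-unit is a local `p`-th power iff its symbol with a
uniformizer is trivial. -/
lemma mem_locPow_iff_sym (LS : LocalSymbols p K) {v : HeightOneSpectrum (𝓞 K)}
    (hvp : (p : 𝓞 K) ∉ v.asIdeal) {a x : Kˣ} (ha : ord v a = 0) (hx : ord v x = 1) :
    a ∈ locPow p v ↔ LS.sym v a x = 1 := by
  refine ⟨fun h => LS.sym_eq_one_of_left h, fun h4 => ?_⟩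
  rw [LS.mem_locPow_iff]
  intro y
  have h3 : LS.sym v a (y / x ^ (ord v y)) = 1 := by
    refine LS.unit_mem v hvp a _ ha ?_
    have hz : ord v (x ^ (ord v y)) = ord v y := by
      rcases (ord v y).eq_nat_or_neg with ⟨m, hm | hm⟩
      · rw [hm, zpow_natCast, ord_pow, hx, mul_one]
      · rw [hm, zpow_neg, zpow_natCast, ord_inv, ord_pow, hx, mul_one]
    rw [ord_div, hz, sub_self]
  rw [_root_.map_div, map_zpow, h4, one_zpow, div_one] at h3
  exact h3

/-- The form `∑_{v ∈ T} c_v (x, y)_v`. -/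
noncomputable def symForm (LS : LocalSymbols p K) (c : HeightOneSpectrum (𝓞 K) → ZMod p)
    (T : Finset (HeightOneSpectrum (𝓞 K))) : Kˣ →* Kˣ →* Multiplicative (ZMod p) where
  toFun x :=
    { toFun := fun y => Multiplicative.ofAdd (∑ v ∈ T, c v * (LS.sym v x y).toAdd)
      map_one' := by simp
      map_mul' := fun y z => by
        simp only [map_mul, toAdd_mul, mul_add, Finset.sum_add_distrib, ofAdd_add] }
  map_one' := by
    ext y
    simp
  map_mul' x y := by
    ext z
    simp only [map_mul, MonoidHom.mul_apply, toAdd_mul, mul_add, Finset.sum_add_distrib,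
      ofAdd_add, MonoidHom.coe_mk, OneHom.coe_mk]

lemma toAdd_symForm (LS : LocalSymbols p K) (c : HeightOneSpectrum (𝓞 K) → ZMod p)
    (T : Finset (HeightOneSpectrum (𝓞 K))) (x y : Kˣ) :
    (symForm LS c T x y).toAdd = ∑ v ∈ T, c v * (LS.sym v x y).toAdd := rfl

lemma symForm_left (LS : LocalSymbols p K) (c : HeightOneSpectrum (𝓞 K) → ZMod p)
    (T : Finset (HeightOneSpectrum (𝓞 K))) {x : Kˣ} (hx : ∀ v ∈ T, x ∈ locPow p v) (y : Kˣ) :
    symForm LS c T x y = 1 := by
  apply Multiplicative.toAdd.injective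
  rw [toAdd_symForm, toAdd_one]
  exact Finset.sum_eq_zero fun v hv => by
    rw [LS.sym_eq_one_of_left (hx v hv), toAdd_one, mul_zero]

lemma symForm_right (LS : LocalSymbols p K) (c : HeightOneSpectrum (𝓞 K) → ZMod p)
    (T : Finset (HeightOneSpectrum (𝓞 K))) (x : Kˣ) {y : Kˣ} (hy : ∀ v ∈ T, y ∈ locPow p v) :
    symForm LS c T x y = 1 := by
  apply Multiplicative.toAdd.injective
  rw [toAdd_symForm, toAdd_one]
  exact Finset.sum_eq_zero fun v hv => by
    rw [LS.sym_eq_one_of_right (hy v hv), toAdd_one, mul_zero]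

lemma symForm_nondeg (LS : LocalSymbols p K) {c : HeightOneSpectrum (𝓞 K) → ZMod p}
    (hc : ∀ v, c v ≠ 0) (T : Finset (HeightOneSpectrum (𝓞 K))) {x : Kˣ}
    (hx : ∀ y, symForm LS c T x y = 1) (v : HeightOneSpectrum (𝓞 K)) (hv : v ∈ T) :
    x ∈ locPow p v := by
  classical
  rw [LS.mem_locPow_iff]
  intro y
  obtain ⟨z, hz⟩ := indep_locPow p hp.out.ne_zero T (fun w => if w = v then y else 1)
  have h3 := congrArg Multiplicative.toAdd (hx z)
  rw [toAdd_symForm, toAdd_one] at h3
  have h4 : ∑ w ∈ T, c w * (LS.sym w x z).toAdd = c v * (LS.sym v x y).toAdd := by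
    rw [Finset.sum_eq_single_of_mem v hv]
    · have h5 := LS.sym_eq_one_of_right (a := x) (hz v hv)
      rw [if_pos rfl, _root_.map_div, div_eq_one] at h5
      rw [h5]
    · intro w hw hwv
      have h5 := LS.sym_eq_one_of_right (a := x) (hz w hw)
      rw [if_neg hwv, div_one] at h5
      rw [h5, toAdd_one, mul_zero]
  rw [h4] at h3
  rcases mul_eq_zero.mp h3 with h6 | h6
  · exact absurd h6 (hc v)
  · exact h6

/-- `S`-units are their own orthogonal. -/
theorem exists_unit [IsTotallyComplex K] {ζ : K} (hζ : IsPrimitiveRoot ζ p)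
    (LS : LocalSymbols p K) (c : HeightOneSpectrum (𝓞 K) → ZMod p) (hc : ∀ v, c v ≠ 0)
    (hpf : ∀ x y : Kˣ, ∀ U : Finset (HeightOneSpectrum (𝓞 K)),
      (∀ v, v ∉ U → LS.sym v x y = 1) → ∑ v ∈ U, c v * (LS.sym v x y).toAdd = 0)
    {T : Finset (HeightOneSpectrum (𝓞 K))} (hTp : AboveP p T)
    (hinj : ∀ y ∈ E T, (∀ v ∈ T, y ∈ locPow p v) → ∃ b : Kˣ, b ^ p = y)
    (φ : Kˣ →* Multiplicative (ZMod p)) (hφ : ∀ x ∈ E T, φ x = 1)
    (hφ' : ∀ x, (∀ v ∈ T, x ∈ locPow p v) → φ x = 1) :
    ∃ b ∈ E T, ∀ y : Kˣ, (φ y).toAdd = ∑ v ∈ T, c v * (LS.sym v b y).toAdd := by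
  classical
  have hidx := (inputs (p := p)).localCount K ζ hζ T hTp
  have hmemP : ∀ x : Kˣ, x ∈ (⨅ v ∈ T, locPow p v) ↔ ∀ v ∈ T, x ∈ locPow p v := by
    intro x
    simp only [Subgroup.mem_iInf]
  have hrel : (⨅ v ∈ T, locPow p v).relIndex (E T) = p ^ (Units.rank K + 1 + T.card) := by
    rw [Subgroup.relIndex, ← index_powE hp.out hζ T]
    congr 1
    ext y
    rw [Subgroup.mem_subgroupOf, mem_powE hp.out, hmemP]
    constructor
    · exact hinj y y.2
    · rintro ⟨b, hb⟩
      rw [← hb]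
      exact fun v _ => pow_mem_locPow p v b
  have hn : Module.finrank ℚ K = 2 * (Units.rank K + 1) := finrank_eq_two_mul_rank K
  have h2 : 2 * T.card + Module.finrank ℚ K = (Units.rank K + 1 + T.card) * 2 := by omega
  obtain ⟨b, hb, hb'⟩ := exists_mem_of_isotropic' p (⨅ v ∈ T, locPow p v)
    (fun x => (hmemP _).2 fun v _ => pow_mem_locPow p v x) (symForm LS c T)
    (fun x hx y => symForm_left LS c T ((hmemP x).1 hx) y)
    (fun x y hy => symForm_right LS c T x ((hmemP y).1 hy))
    (fun x hx => (hmemP x).2 fun v hv => symForm_nondeg LS hc T hx v hv) (E T)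
    (by
      intro x hx y hy
      apply Multiplicative.toAdd.injective
      rw [toAdd_symForm, toAdd_one]
      exact hpf x y T (fun v hv => LS.sym_unit hTp hx hy hv))
    (by
      rw [hidx]
      exact pow_ne_zero _ hp.out.ne_zero)
    (by rw [hidx, hrel, ← pow_mul, h2]) φ hφ (fun x hx => hφ' x ((hmemP x).1 hx))
  exact ⟨b, hb, fun y => by rw [hb' y, toAdd_symForm]⟩

/-- **Existence theorem** for ray characters of order `p`, `ζ_p ∈ K` totally complex. -/
theorem exists_kummer [IsTotallyComplex K] {ζ : K} (hζ : IsPrimitiveRoot ζ p)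
    {S : Finset (HeightOneSpectrum (𝓞 K))}
    {n : ℕ} {η : HeightOneSpectrum (𝓞 K) → ZMod p} (hη : IsRay S n η) :
    ∃ (b : Kˣ) (T : Finset (HeightOneSpectrum (𝓞 K))), S ⊆ T ∧ AboveP p T ∧ b ∈ E T ∧
      ∀ v, v ∉ T → (η v = 0 ↔ b ∈ locPow p v) := by
  classical
  obtain ⟨LS, c, hc, hpf⟩ := exists_productFormula (p := p) K hζ
  obtain ⟨T, hST, hTp, hcl, hinj⟩ := exists_inj (inputs (p := p)) hζ S
  have hηT : IsRay T n η := hη.mono_set hST
  -- the product formula
  have hprod : ∀ x y : Kˣ, ∀ U : Finset (HeightOneSpectrum (𝓞 K)),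
      (∀ v, v ∉ U → LS.sym v x y = 1) → ∑ v ∈ U, c v * (LS.sym v x y).toAdd = 0 := by
    intro x y U hU
    have h3 := hpf x y
    rw [Finsupp.sum_of_support_subset (s := U) _ (by
      intro v hv
      by_contra h
      rw [Finsupp.mem_support_iff, symVec_apply, hU v h] at hv
      exact hv rfl) _ (fun v _ => mul_zero _)] at h3
    exact h3
  obtain ⟨b, hb, hkey⟩ := exists_unit hζ LS c hc hprod hTp hinj (rayVal T η)
    (fun x hx => rayVal_of_mem_E T η hx) (fun x hx => rayVal_eq_one_of_locPow hηT hx)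
  refine ⟨b, T, hST, hTp, hb, fun v hv => ?_⟩
  obtain ⟨x, hx⟩ := hcl (Finsupp.single v 1)
  have hxv : ord v x = 1 := by rw [hx v hv, Finsupp.single_eq_same]
  have h1 := hkey x
  have h2 : (rayVal T η x).toAdd = η v := by
    rw [toAdd_rayVal_of_single T η hv, hxv, one_smul]
    intro w hw hwv
    rw [hx w hw, Finsupp.single_eq_of_ne hwv]
  have h3 : ∑ w ∈ insert v T, c w * (LS.sym w b x).toAdd = 0 := by
    apply hprod
    intro w hw
    rw [Finset.mem_insert, not_or] at hw
    have hxw : ord w x = 0 := by rw [hx w hw.2, Finsupp.single_eq_of_ne hw.1]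
    exact LS.unit_mem w (fun h => hw.2 (hTp w h)) b x (mem_E.mp hb w hw.2) hxw
  rw [Finset.sum_insert hv, ← h1, h2] at h3
  rw [mem_locPow_iff_sym LS (fun h => hv (hTp v h)) (mem_E.1 hb v hv) hxv]
  constructor
  · intro h
    rw [h, add_zero] at h3
    rcases mul_eq_zero.mp h3 with h6 | h6
    · exact absurd h6 (hc v)
    · exact h6
  · intro h
    rw [h, toAdd_one, mul_zero, zero_add] at h3
    exact h3

end Exist

end Fermat.Agent.LT.Quad
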